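/-
S25 ATLAS/DIV (helper5390): bridge from the relational base change `BaseChangeData`
(frozen `Defs.lean`) to Mathlib tensor products over the BASE ring: for `φ : R → R'` the chart
modules of a base change are `R' ⊗[R] N_i`.  (Verbatim copy of helper5125's
`VALSEP/H5125/BCBridge.lean`, namespace renamed, per BOARD_S25_ATLAS rules.)
-/
import Fermat.Agent.S25.Defs

set_option autoImplicit false
set_option linter.style.haveILetI false

universe u

namespace Fermat.Agent.S25.ATLAS.DIV.LG.F5390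

open scoped TensorProduct

open GluedModule

section single

variable {k : Type u} [Field k] {R R' A : Type u} [CommRing R] [Algebra k R] [CommRing R']
  [Algebra k R'] [CommRing A] [Algebra k A] [Algebra R R'] [IsScalarTower k R R']

/-- Single-chart form: a module over `R' ⊗[k] A` with the universal property of the base change
of `N` along `R ⊗[k] A → R' ⊗[k] A` is `R' ⊗[R] N`. -/
theorem single_exists_equiv
    {N N' : Type u} [AddCommGroup N] [Module R N] [Module (R ⊗[k] A) N]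
    [IsScalarTower R (R ⊗[k] A) N]
    [AddCommGroup N'] [Module R' N'] [Module (R' ⊗[k] A) N'] [IsScalarTower R' (R' ⊗[k] A) N']
    (j : N →+ N')
    (hj : ∀ (b : R ⊗[k] A) (n : N), j (b • n) =
      Algebra.TensorProduct.map (IsScalarTower.toAlgHom k R R') (AlgHom.id k A) b • j n)
    (univ : ∀ (Q : Type u) [AddCommGroup Q] [Module (R' ⊗[k] A) Q] (h : N →+ Q),
      (∀ (b : R ⊗[k] A) (n : N), h (b • n) =
        Algebra.TensorProduct.map (IsScalarTower.toAlgHom k R R') (AlgHom.id k A) b • h n) →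
        ∃! h' : N' →ₗ[R' ⊗[k] A] Q, ∀ n, h' (j n) = h n) :
    ∃ e : R' ⊗[R] N ≃ₗ[R'] N', ∀ (c : R') (n : N), e (c ⊗ₜ[R] n) = c • j n := by
  letI algBB' : Algebra (R ⊗[k] A) (R' ⊗[k] A) :=
    (Algebra.TensorProduct.map (IsScalarTower.toAlgHom k R R') (AlgHom.id k A)).toRingHom.toAlgebra
  have halg : ∀ b : R ⊗[k] A, algebraMap (R ⊗[k] A) (R' ⊗[k] A) b =
      Algebra.TensorProduct.map (IsScalarTower.toAlgHom k R R') (AlgHom.id k A) b := fun _ => rfl
  haveI tw1 : IsScalarTower R (R ⊗[k] A) (R' ⊗[k] A) := IsScalarTower.of_algebraMap_eq (by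
    intro r
    rw [halg, Algebra.TensorProduct.algebraMap_apply, Algebra.TensorProduct.algebraMap_apply,
      Algebra.TensorProduct.map_tmul]
    simp)
  haveI push : Algebra.IsPushout R R' (R ⊗[k] A) (R' ⊗[k] A) :=
    Algebra.IsPushout.tensorProduct_tensorProduct k A R R' (by
      ext a
      simp [halg])
  letI modBN' : Module (R ⊗[k] A) N' := Module.compHom N' (algebraMap (R ⊗[k] A) (R' ⊗[k] A))
  haveI tw2 : IsScalarTower (R ⊗[k] A) (R' ⊗[k] A) N' := ⟨fun b c n => by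
    change (algebraMap (R ⊗[k] A) (R' ⊗[k] A) b * c) • n =
      algebraMap (R ⊗[k] A) (R' ⊗[k] A) b • c • n
    rw [mul_smul]⟩
  -- `j` as a linear map over `R ⊗[k] A`
  let jL : N →ₗ[R ⊗[k] A] N' :=
    { toFun := j
      map_add' := j.map_add
      map_smul' := fun b n => by
        rw [hj b n]
        rfl }
  have hbc : IsBaseChange (R' ⊗[k] A) jL := by
    apply IsBaseChange.of_lift_unique
    intro Q _ _ _ _ g
    letI : AddCommGroup Q := Module.addCommMonoidToAddCommGroup (R' ⊗[k] A)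
    obtain ⟨h', hh', huniq⟩ := univ Q g.toAddMonoidHom (fun b n => by
      change g (b • n) = algebraMap (R ⊗[k] A) (R' ⊗[k] A) b • g n
      rw [map_smul, algebraMap_smul])
    refine ⟨h', ?_, ?_⟩
    · ext n
      exact hh' n
    · intro g' hg'
      apply huniq
      intro n
      exact congrArg (fun t => t n) hg'
  let e₀ := Algebra.IsPushout.cancelBaseChange R R' (R ⊗[k] A) (R' ⊗[k] A) N
  refine ⟨e₀.symm ≪≫ₗ (hbc.equiv.restrictScalars R'), ?_⟩
  intro c n
  change hbc.equiv (e₀.symm (c ⊗ₜ[R] n)) = c • j n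
  rw [Algebra.IsPushout.cancelBaseChange_symm_tmul, hbc.equiv_tmul]
  change algebraMap R' (R' ⊗[k] A) c • j n = c • j n
  rw [algebraMap_smul]

end single

section chart

variable {k : Type u} [Field k] (𝒞 : CurveData k) {R R' : Type u} [CommRing R] [Algebra k R]
  [CommRing R'] [Algebra k R'] [Algebra R R'] [IsScalarTower k R R']
  {N : GluedModule (𝒞.chart R)} {N' : GluedModule (𝒞.chart R')}

/-- Chart 1 of a base change is `R' ⊗[R] N₁`. -/
theorem exists_equiv₁ (D : BaseChangeData (𝒞.chartHom (IsScalarTower.toAlgHom k R R')) N N') :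
    ∃ e : R' ⊗[R] N.N₁ ≃ₗ[R'] N'.N₁, ∀ (c : R') (n : N.N₁), e (c ⊗ₜ[R] n) = c • D.j₁ n := by
  letI : Module (R ⊗[k] 𝒞.A₁) N.N₁ := N.mod₁
  haveI : IsScalarTower R (R ⊗[k] 𝒞.A₁) N.N₁ := N.tower₁
  letI : Module (R' ⊗[k] 𝒞.A₁) N'.N₁ := N'.mod₁
  haveI : IsScalarTower R' (R' ⊗[k] 𝒞.A₁) N'.N₁ := N'.tower₁
  exact single_exists_equiv (A := 𝒞.A₁) D.j₁ D.j₁_smul D.univ₁

/-- Chart 2 of a base change is `R' ⊗[R] N₂`. -/
theorem exists_equiv₂ (D : BaseChangeData (𝒞.chartHom (IsScalarTower.toAlgHom k R R')) N N') :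
    ∃ e : R' ⊗[R] N.N₂ ≃ₗ[R'] N'.N₂, ∀ (c : R') (n : N.N₂), e (c ⊗ₜ[R] n) = c • D.j₂ n := by
  letI : Module (R ⊗[k] 𝒞.A₂) N.N₂ := N.mod₂
  haveI : IsScalarTower R (R ⊗[k] 𝒞.A₂) N.N₂ := N.tower₂
  letI : Module (R' ⊗[k] 𝒞.A₂) N'.N₂ := N'.mod₂
  haveI : IsScalarTower R' (R' ⊗[k] 𝒞.A₂) N'.N₂ := N'.tower₂
  exact single_exists_equiv (A := 𝒞.A₂) D.j₂ D.j₂_smul D.univ₂

end chart

end Fermat.Agent.S25.ATLAS.DIV.LG.F5390
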