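/-
S25 ATLAS/DIV-C (helper5390): Mathlib-only fibrewise Nakayama tools.

* `nontrivial_field_tensor_iff` (as in helper9288's `SupportBaseChange`): for a finite module `M`
  and a field `L` over `R`, `L ⊗[R] M ≠ 0` iff the kernel of `R → L` lies in the support of `M`.
* `exists_smul_eq_zero_of_subsingleton_tensor`: `L ⊗[R] M = 0` ⇒ some `a` with nonzero image in `L`
  kills `M` (openness of the complement of the support, elementwise).
* `exists_smul_mem_of_span_eq_top`: the relational form used for glued modules: `T ≤ N` with `N ⧸ T`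
  finite, `θ : L ⊗[R] N ≃ N'` with `θ (c ⊗ n) = c • j n`, and `j '' T` spanning `N'` ⇒ some `a` with
  nonzero image in `L` and `a • N ⊆ T`.
* `eq_top_of_forall_maximal`: an ideal meeting the complement of every maximal ideal is `⊤`.
-/
import Mathlib

set_option autoImplicit false

universe u

namespace Fermat.Agent.S25.ATLAS.DIV.LG.F5390

open scoped TensorProduct

section generic

variable {R : Type u} [CommRing R] {M : Type u} [AddCommGroup M] [Module R M]

/-- For a finite module `M` and a field `L` over `R` whose structure map has kernel the prime `p`,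
`L ⊗[R] M` is nonzero iff `p` is in the support of `M`. -/
theorem nontrivial_field_tensor_iff [Module.Finite R M] (L : Type u) [Field L] [Algebra R L]
    (p : PrimeSpectrum R) (hp : RingHom.ker (algebraMap R L) = p.asIdeal) :
    Nontrivial (L ⊗[R] M) ↔ p ∈ Module.support R M := by
  have hf₁ : p.asIdeal ≤ RingHom.ker (algebraMap R L) := by rw [hp]
  have hf₂ : p.asIdeal.primeCompl ≤ (IsUnit.submonoid L).comap (algebraMap R L) := by
    intro x hx
    simp only [Submonoid.mem_comap, IsUnit.mem_submonoid_iff, isUnit_iff_ne_zero]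
    intro h0
    have : x ∈ RingHom.ker (algebraMap R L) := h0
    rw [hp] at this
    exact hx this
  let φ : p.asIdeal.ResidueField →+* L :=
    Ideal.ResidueField.lift p.asIdeal (algebraMap R L) hf₁ hf₂
  let _ : Algebra p.asIdeal.ResidueField L := φ.toAlgebra
  have : IsScalarTower R p.asIdeal.ResidueField L := IsScalarTower.of_algebraMap_eq' (by
    refine RingHom.ext fun r => ?_
    exact (Ideal.ResidueField.lift_algebraMap p.asIdeal (algebraMap R L) hf₁ hf₂ r).symm)
  rw [Module.mem_support_iff_nontrivial_residueField_tensorProduct]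
  let e := TensorProduct.AlgebraTensorModule.cancelBaseChange R p.asIdeal.ResidueField L L M
  rw [← e.nontrivial_congr]
  exact Module.FaithfullyFlat.nontrivial_tensorProduct_iff_right _ _

/-- If a finite module vanishes after base change to a field `L`, then some `a` with nonzero image
in `L` kills it. -/
theorem exists_smul_eq_zero_of_subsingleton_tensor [Module.Finite R M] (L : Type u) [Field L]
    [Algebra R L] (h : Subsingleton (L ⊗[R] M)) :
    ∃ a : R, algebraMap R L a ≠ 0 ∧ ∀ m : M, a • m = 0 := by
  let p : PrimeSpectrum R := ⟨RingHom.ker (algebraMap R L), RingHom.ker_isPrime _⟩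
  have hp : p ∉ Module.support R M := by
    rw [← nontrivial_field_tensor_iff L p rfl]
    exact not_nontrivial_iff_subsingleton.mpr h
  rw [Module.mem_support_iff_of_finite] at hp
  obtain ⟨a, ha, hap⟩ := SetLike.not_le_iff_exists.mp hp
  refine ⟨a, fun h0 => hap h0, fun m => ?_⟩
  exact Module.mem_annihilator.mp ha m

/-- An ideal which is not contained in any maximal ideal is the unit ideal. -/
theorem eq_top_of_forall_maximal (I : Ideal R)
    (h : ∀ m : Ideal R, m.IsMaximal → ∃ a ∈ I, a ∉ m) : I = ⊤ := by
  by_contra hI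
  obtain ⟨m, hm, hIm⟩ := Ideal.exists_le_maximal I hI
  obtain ⟨a, haI, ham⟩ := h m hm
  exact ham (hIm haI)

end generic

section relational

variable {R : Type u} [CommRing R] {N : Type u} [AddCommGroup N] [Module R N]
  {L : Type u} [CommRing L] [Algebra R L] {N' : Type u} [AddCommGroup N'] [Module L N']

/-- Right exactness, relational form: if `N' = L ⊗[R] N` (via `θ`, `θ (c ⊗ n) = c • j n`) and the
image of `T` spans `N'`, then `L ⊗[R] (N ⧸ T) = 0`. -/
theorem subsingleton_tensor_quotient_of_span_eq_top (T : Submodule R N) (j : N → N')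
    (θ : L ⊗[R] N ≃ₗ[L] N') (hθ : ∀ (c : L) (n : N), θ (c ⊗ₜ[R] n) = c • j n)
    (hT : Submodule.span L (j '' (T : Set N)) = ⊤) : Subsingleton (L ⊗[R] (N ⧸ T)) := by
  have key : ∀ y ∈ Submodule.span L (j '' (T : Set N)),
      (T.mkQ.baseChange L) (θ.symm y) = 0 := by
    intro y hy
    induction hy using Submodule.span_induction with
    | mem y hy =>
      obtain ⟨t, ht, rfl⟩ := hy
      have h1 : θ.symm (j t) = (1 : L) ⊗ₜ[R] t := by
        rw [LinearEquiv.symm_apply_eq, hθ, one_smul]
      rw [h1, LinearMap.baseChange_tmul, Submodule.mkQ_apply,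
        (Submodule.Quotient.mk_eq_zero T).mpr ht, TensorProduct.tmul_zero]
    | zero => rw [map_zero, map_zero]
    | add x y _ _ hx hy => rw [map_add, map_add, hx, hy, add_zero]
    | smul c x _ hx => rw [map_smul, map_smul, hx, smul_zero]
  have hsurj : Function.Surjective (T.mkQ.baseChange L) :=
    LinearMap.lTensor_surjective L (Submodule.mkQ_surjective T)
  refine ⟨fun x y => ?_⟩
  obtain ⟨x', rfl⟩ := hsurj x
  obtain ⟨y', rfl⟩ := hsurj y
  have hx := key (θ x') (by rw [hT]; trivial)
  have hy := key (θ y') (by rw [hT]; trivial)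
  rw [LinearEquiv.symm_apply_apply] at hx hy
  rw [hx, hy]

end relational

section relationalField

variable {R : Type u} [CommRing R] {N : Type u} [AddCommGroup N] [Module R N]
  {L : Type u} [Field L] [Algebra R L] {N' : Type u} [AddCommGroup N'] [Module L N']

/-- Fibrewise Nakayama, relational form: `N ⧸ T` finite, `N' = L ⊗[R] N` for a field `L`, and the
image of `T` spans `N'`; then some `a` with nonzero image in `L` satisfies `a • N ⊆ T`. -/
theorem exists_smul_mem_of_span_eq_top (T : Submodule R N) [Module.Finite R (N ⧸ T)]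
    (j : N → N') (θ : L ⊗[R] N ≃ₗ[L] N') (hθ : ∀ (c : L) (n : N), θ (c ⊗ₜ[R] n) = c • j n)
    (hT : Submodule.span L (j '' (T : Set N)) = ⊤) :
    ∃ a : R, algebraMap R L a ≠ 0 ∧ ∀ n : N, a • n ∈ T := by
  have h := subsingleton_tensor_quotient_of_span_eq_top T j θ hθ hT
  obtain ⟨a, ha, hkill⟩ := exists_smul_eq_zero_of_subsingleton_tensor (M := N ⧸ T) L h
  refine ⟨a, ha, fun n => ?_⟩
  have := hkill (Submodule.Quotient.mk n)
  rwa [← Submodule.Quotient.mk_smul, Submodule.Quotient.mk_eq_zero] at this

end relationalField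

end Fermat.Agent.S25.ATLAS.DIV.LG.F5390
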