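/-
S25 ATLAS/DIV-C (helper5390): finiteness over the base of `N ⧸ g N` on the second chart.

If `A` is finite over `k[g]` then every finite `R ⊗[k] A`-module `N` is, modulo `(1 ⊗ g) N`,
finitely generated over `R`.  Applied to `𝒞.chart R` (hypothesis `𝒞.fin₂`): for a glued module `M`
with `M.N₂` finite over `B₂`, every `R`-submodule `T ⊇ g M.N₂` has `M.N₂ ⧸ T` finite over `R`
("`V(g)` is finite over the base").
-/
import Fermat.Agent.S25.Defs

set_option autoImplicit false
set_option linter.style.haveILetI false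

universe u

namespace Fermat.Agent.S25.ATLAS.DIV.LG.F5390

open scoped TensorProduct

section single

variable {k : Type u} [Field k] {A : Type u} [CommRing A] [Algebra k A]

/-- `A = k-span t + g A` for a finite set `t`, when `A` is finite over `k[g]`. -/
theorem exists_finset_span_add_mul (g : A) (hfin : Module.Finite (Algebra.adjoin k ({g} : Set A)) A) :
    ∃ t : Finset A, ∀ a : A, ∃ a' ∈ Submodule.span k (t : Set A), ∃ q : A, a = a' + g * q := by
  obtain ⟨t, ht⟩ := hfin.fg_top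
  refine ⟨t, fun a => ?_⟩
  have hS : ∀ x ∈ Algebra.adjoin k ({g} : Set A), ∃ c : k, ∃ y : A,
      x = algebraMap k A c + g * y := by
    intro x hx
    induction hx using Algebra.adjoin_induction with
    | mem x hx =>
      rw [Set.mem_singleton_iff] at hx
      subst hx
      exact ⟨0, 1, by simp⟩
    | algebraMap r => exact ⟨r, 0, by simp⟩
    | add x y _ _ hx hy =>
      obtain ⟨c, u, rfl⟩ := hx
      obtain ⟨c', u', rfl⟩ := hy
      exact ⟨c + c', u + u', by rw [map_add]; ring⟩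
    | mul x y _ _ hx hy =>
      obtain ⟨c, u, rfl⟩ := hx
      obtain ⟨c', u', rfl⟩ := hy
      exact ⟨c * c', algebraMap k A c * u' + u * algebraMap k A c' + g * u * u', by
        rw [map_mul]; ring⟩
  have ha : a ∈ Submodule.span (Algebra.adjoin k ({g} : Set A)) (t : Set A) := by
    rw [ht]; trivial
  induction ha using Submodule.span_induction with
  | mem x hx => exact ⟨x, Submodule.subset_span hx, 0, by simp⟩
  | zero => exact ⟨0, zero_mem _, 0, by simp⟩
  | add x y _ _ hx hy =>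
    obtain ⟨x', hx', q, rfl⟩ := hx
    obtain ⟨y', hy', q', rfl⟩ := hy
    exact ⟨x' + y', add_mem hx' hy', q + q', by ring⟩
  | smul c x _ hx =>
    obtain ⟨x', hx', q, rfl⟩ := hx
    obtain ⟨c₀, y, hc⟩ := hS c c.2
    refine ⟨c₀ • x', Submodule.smul_mem _ _ hx', (c : A) * q + y * x', ?_⟩
    rw [Subalgebra.smul_def, smul_eq_mul, hc, Algebra.smul_def]
    ring

variable {R : Type u} [CommRing R] [Algebra k R]

/-- `R ⊗ A = R-span (1 ⊗ t) + (1 ⊗ g) (R ⊗ A)`. -/
theorem exists_finset_span_add_mul_tensor (g : A)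
    (hfin : Module.Finite (Algebra.adjoin k ({g} : Set A)) A) :
    ∃ t : Finset A, ∀ b : R ⊗[k] A,
      ∃ b' ∈ Submodule.span R ((fun a : A => (1 : R) ⊗ₜ[k] a) '' (t : Set A)),
        ∃ q : R ⊗[k] A, b = b' + ((1 : R) ⊗ₜ[k] g) * q := by
  obtain ⟨t, ht⟩ := exists_finset_span_add_mul (k := k) g hfin
  refine ⟨t, fun b => ?_⟩
  induction b using TensorProduct.induction_on with
  | zero => exact ⟨0, zero_mem _, 0, by simp⟩
  | tmul r a =>
    obtain ⟨a', ha', q, rfl⟩ := ht a
    refine ⟨r ⊗ₜ[k] a', ?_, r ⊗ₜ[k] q, ?_⟩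
    · induction ha' using Submodule.span_induction with
      | mem x hx =>
        have : r ⊗ₜ[k] x = r • ((1 : R) ⊗ₜ[k] x) := by
          rw [TensorProduct.smul_tmul', smul_eq_mul, mul_one]
        rw [this]
        exact Submodule.smul_mem _ _ (Submodule.subset_span ⟨x, hx, rfl⟩)
      | zero => rw [TensorProduct.tmul_zero]; exact zero_mem _
      | add x y _ _ hx hy => rw [TensorProduct.tmul_add]; exact add_mem hx hy
      | smul c x _ hx =>
        rw [TensorProduct.tmul_smul, ← algebraMap_smul R c (r ⊗ₜ[k] x)]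
        exact Submodule.smul_mem _ _ hx
    · rw [TensorProduct.tmul_add, Algebra.TensorProduct.tmul_mul_tmul, one_mul]
  | add x y hx hy =>
    obtain ⟨x', hx', q, rfl⟩ := hx
    obtain ⟨y', hy', q', rfl⟩ := hy
    exact ⟨x' + y', add_mem hx' hy', q + q', by ring⟩

/-- A finite `R ⊗ A`-module is, modulo `(1 ⊗ g)`, finitely generated over `R`. -/
theorem exists_finset_span_add_smul (g : A)
    (hfin : Module.Finite (Algebra.adjoin k ({g} : Set A)) A)
    (N : Type u) [AddCommGroup N] [Module R N] [Module (R ⊗[k] A) N]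
    [IsScalarTower R (R ⊗[k] A) N] [Module.Finite (R ⊗[k] A) N] :
    ∃ F : Finset N, ∀ x : N, ∃ x' ∈ Submodule.span R (F : Set N), ∃ y : N,
      x = x' + ((1 : R) ⊗ₜ[k] g : R ⊗[k] A) • y := by
  classical
  obtain ⟨t, ht⟩ := exists_finset_span_add_mul_tensor (k := k) (R := R) g hfin
  obtain ⟨G, hG⟩ := (Module.Finite.fg_top : (⊤ : Submodule (R ⊗[k] A) N).FG)
  let F : Finset N := Finset.image₂ (fun (a : A) (m : N) => ((1 : R) ⊗ₜ[k] a : R ⊗[k] A) • m) t G
  refine ⟨F, ?_⟩
  -- the generators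
  have h1 : ∀ (b : R ⊗[k] A) (m : N), m ∈ G → ∃ x' ∈ Submodule.span R (F : Set N), ∃ y : N,
      b • m = x' + ((1 : R) ⊗ₜ[k] g : R ⊗[k] A) • y := by
    intro b m hm
    obtain ⟨b', hb', q, rfl⟩ := ht b
    refine ⟨b' • m, ?_, q • m, by rw [add_smul, mul_smul]⟩
    induction hb' using Submodule.span_induction with
    | mem x hx =>
      obtain ⟨a, ha, rfl⟩ := hx
      exact Submodule.subset_span (Finset.mem_coe.mpr (Finset.mem_image₂_of_mem ha hm))
    | zero => rw [zero_smul]; exact zero_mem _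
    | add x y _ _ hx hy => rw [add_smul]; exact add_mem hx hy
    | smul r x _ hx => rw [smul_assoc]; exact Submodule.smul_mem _ _ hx
  have h2 : ∀ x ∈ Submodule.span (R ⊗[k] A) (G : Set N), ∀ b : R ⊗[k] A,
      ∃ x' ∈ Submodule.span R (F : Set N), ∃ y : N,
        b • x = x' + ((1 : R) ⊗ₜ[k] g : R ⊗[k] A) • y := by
    intro x hx
    induction hx using Submodule.span_induction with
    | mem x hx => exact fun b => h1 b x hx
    | zero => exact fun b => ⟨0, zero_mem _, 0, by simp⟩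
    | add x y _ _ hx hy =>
      intro b
      obtain ⟨x', hx', q, hq⟩ := hx b
      obtain ⟨y', hy', q', hq'⟩ := hy b
      exact ⟨x' + y', add_mem hx' hy', q + q', by rw [smul_add, hq, hq', smul_add]; abel⟩
    | smul c x _ hx =>
      intro b
      obtain ⟨x', hx', q, hq⟩ := hx (b * c)
      exact ⟨x', hx', q, by rw [← mul_smul, hq]⟩
  intro x
  obtain ⟨x', hx', q, hq⟩ := h2 x (by rw [hG]; trivial) 1
  exact ⟨x', hx', q, by rw [← hq, one_smul]⟩

/-- Finiteness over `R` of any quotient of `N ⧸ (1 ⊗ g) N`. -/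
theorem finite_quotient_of_smul_mem (g : A)
    (hfin : Module.Finite (Algebra.adjoin k ({g} : Set A)) A)
    (N : Type u) [AddCommGroup N] [Module R N] [Module (R ⊗[k] A) N]
    [IsScalarTower R (R ⊗[k] A) N] [Module.Finite (R ⊗[k] A) N]
    (T : Submodule R N) (hT : ∀ y : N, ((1 : R) ⊗ₜ[k] g : R ⊗[k] A) • y ∈ T) :
    Module.Finite R (N ⧸ T) := by
  obtain ⟨F, hF⟩ := exists_finset_span_add_smul (k := k) (R := R) g hfin N
  refine Module.finite_def.mpr ?_
  have : (⊤ : Submodule R (N ⧸ T)) = Submodule.map T.mkQ (Submodule.span R (F : Set N)) := by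
    symm
    rw [eq_top_iff]
    rintro x -
    obtain ⟨x, rfl⟩ := Submodule.mkQ_surjective T x
    obtain ⟨x', hx', y, rfl⟩ := hF x
    refine ⟨x', hx', ?_⟩
    simp only [map_add, Submodule.mkQ_apply]
    rw [(Submodule.Quotient.mk_eq_zero T).mpr (hT y), add_zero]
  rw [this]
  exact (Submodule.fg_span (Finset.finite_toSet F)).map _

end single

section chart

variable {k : Type u} [Field k] (𝒞 : CurveData k) {R : Type u} [CommRing R] [Algebra k R]

/-- On the second chart of `𝒞.chart R`: a quotient of `M.N₂ ⧸ g M.N₂` is finite over `R`. -/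
theorem finite_quotient₂ (M : GluedModule (𝒞.chart R)) [Module.Finite (𝒞.chart R).B₂ M.N₂]
    (T : Submodule R M.N₂) (hT : ∀ y : M.N₂, (𝒞.chart R).g • y ∈ T) :
    Module.Finite R (M.N₂ ⧸ T) := by
  letI : Module (R ⊗[k] 𝒞.A₂) M.N₂ := M.mod₂
  haveI : IsScalarTower R (R ⊗[k] 𝒞.A₂) M.N₂ := M.tower₂
  haveI : Module.Finite (R ⊗[k] 𝒞.A₂) M.N₂ := ‹Module.Finite (𝒞.chart R).B₂ M.N₂›
  exact finite_quotient_of_smul_mem (k := k) (R := R) 𝒞.g 𝒞.fin₂ M.N₂ T hT

/-- Same on the first chart (`V(f)`). -/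
theorem finite_quotient₁ (M : GluedModule (𝒞.chart R)) [Module.Finite (𝒞.chart R).B₁ M.N₁]
    (T : Submodule R M.N₁) (hT : ∀ y : M.N₁, (𝒞.chart R).f • y ∈ T) :
    Module.Finite R (M.N₁ ⧸ T) := by
  letI : Module (R ⊗[k] 𝒞.A₁) M.N₁ := M.mod₁
  haveI : IsScalarTower R (R ⊗[k] 𝒞.A₁) M.N₁ := M.tower₁
  haveI : Module.Finite (R ⊗[k] 𝒞.A₁) M.N₁ := ‹Module.Finite (𝒞.chart R).B₁ M.N₁›
  exact finite_quotient_of_smul_mem (k := k) (R := R) 𝒞.f 𝒞.fin₁ M.N₁ T hT

end chart

end Fermat.Agent.S25.ATLAS.DIV.LG.F5390
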