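/-
S25 ATLAS/DIV-C (helper5390), stage 2: the condition C2 of BOARD_S25_ATLAS ("the zero divisor of
the section `s` does not meet `V(g) = C ∖ U₁`"), for a FIXED global section `s : M.H0`:

    C2 M s  :=  span B₂ {s.2} ⊔ (span {g}) • ⊤ = ⊤          (verbatim the 2nd clause of `Good.sec`)

For `M` over `𝒞.chart R` (ANY `k`-algebra `R`) with `M.N₂` finite over `B₂` (e.g. a line bundle):

* `mapH0 D s`              : the image section, for `D : BaseChangeData Ψ M M'`;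
* `C2.of_baseChangeData`   : C2 is stable under base change (any `TwoChart.Hom`);
* `C2.exists_smul_mem`     : C2 at ONE field point `φ₀` ⇒ `∃ a, φ₀ a ≠ 0 ∧ a • M.N₂ ⊆ B₂ s₂ + g M.N₂`;
* `C2.of_fibres`   (LG)    : C2 on all geometric fibres ⇒ C2;
* `C2.spread`    (SPREAD)  : C2 at one field point ⇒ C2 after every base change inverting some
                             `a` with `φ₀ a ≠ 0`;
* `C2.smul_unit`, `C2.of_finrank_eq_one`, `c2_of_good` : independence of the generator of `H⁰`,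
                             and `Good 𝒞 M ⇒ C2 M s` for every nonzero section `s`.

No (CB1), no rigidity, no cohomology vanishing is used: the section is carried along explicitly.
-/
import Fermat.Agent.S25.ATLAS.Defs
import Fermat.Agent.S25.ATLAS.DIV.LG.F5390.BCBridge
import Fermat.Agent.S25.ATLAS.DIV.LG.F5390.FibreNak
import Fermat.Agent.S25.ATLAS.DIV.LG.F5390.FinG

set_option autoImplicit false
set_option linter.style.haveILetI false

universe u

namespace Fermat.Agent.S25.ATLAS.DIV.LG.F5390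

open scoped TensorProduct

open GluedModule

/-! ### Generalities on two-charts -/

section twoChart

variable {R : Type u} [CommRing R] {𝔹 : TwoChart R}

/-- Membership in `(g) • ⊤`. -/
theorem mem_span_singleton_smul_top {B N : Type u} [CommRing B] [AddCommGroup N] [Module B N]
    (g : B) (x : N) :
    x ∈ (Ideal.span {g}) • (⊤ : Submodule B N) ↔ ∃ y : N, x = g • y := by
  constructor
  · intro hx
    refine Submodule.smul_induction_on hx (fun r hr n _ => ?_) (fun x y hx hy => ?_)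
    · obtain ⟨c, rfl⟩ := Ideal.mem_span_singleton'.mp hr
      exact ⟨c • n, by rw [mul_comm, mul_smul]⟩
    · obtain ⟨x', rfl⟩ := hx
      obtain ⟨y', rfl⟩ := hy
      exact ⟨x' + y', by rw [smul_add]⟩
  · rintro ⟨y, rfl⟩
    exact Submodule.smul_mem_smul (Ideal.mem_span_singleton_self g) trivial

/-- The submodule `B₂ s₂ + g N₂` of the second chart. -/
def T2 (M : GluedModule 𝔹) (s : M.H0) : Submodule 𝔹.B₂ M.N₂ :=
  Submodule.span 𝔹.B₂ {(s : M.N₁ × M.N₂).2} ⊔ (Ideal.span {𝔹.g}) • (⊤ : Submodule 𝔹.B₂ M.N₂)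

/-- Condition C2 for the global section `s`: `N₂ = B₂ s₂ + g N₂` (the zero locus of `s` does not
meet `V(g)`).  Verbatim the second clause of `Good.sec`. -/
def C2 (M : GluedModule 𝔹) (s : M.H0) : Prop :=
  Submodule.span 𝔹.B₂ {(s : M.N₁ × M.N₂).2} ⊔
    (Ideal.span {𝔹.g}) • (⊤ : Submodule 𝔹.B₂ M.N₂) = ⊤

theorem c2_iff (M : GluedModule 𝔹) (s : M.H0) : C2 M s ↔ T2 M s = ⊤ := Iff.rfl

theorem mem_T2 (M : GluedModule 𝔹) (s : M.H0) (x : M.N₂) :
    x ∈ T2 M s ↔ ∃ (b : 𝔹.B₂) (y : M.N₂), x = b • (s : M.N₁ × M.N₂).2 + 𝔹.g • y := by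
  unfold T2
  rw [Submodule.mem_sup]
  constructor
  · rintro ⟨x₁, hx₁, x₂, hx₂, rfl⟩
    obtain ⟨b, rfl⟩ := Submodule.mem_span_singleton.mp hx₁
    obtain ⟨y, rfl⟩ := (mem_span_singleton_smul_top _ _).mp hx₂
    exact ⟨b, y, rfl⟩
  · rintro ⟨b, y, rfl⟩
    exact ⟨_, Submodule.mem_span_singleton.mpr ⟨b, rfl⟩, _,
      (mem_span_singleton_smul_top _ _).mpr ⟨y, rfl⟩, rfl⟩

theorem snd_mem_T2 (M : GluedModule 𝔹) (s : M.H0) : (s : M.N₁ × M.N₂).2 ∈ T2 M s :=
  (mem_T2 M s _).mpr ⟨1, 0, by simp⟩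

theorem g_smul_mem_T2 (M : GluedModule 𝔹) (s : M.H0) (y : M.N₂) : 𝔹.g • y ∈ T2 M s :=
  (mem_T2 M s _).mpr ⟨0, y, by simp⟩

/-- C2 does not change when the section is multiplied by a unit of the base. -/
theorem C2.smul_unit (M : GluedModule 𝔹) (s : M.H0) (c : R) (hc : IsUnit c) :
    C2 M (c • s) ↔ C2 M s := by
  unfold C2
  have h1 : ((c • s : M.H0) : M.N₁ × M.N₂).2 =
      algebraMap R 𝔹.B₂ c • (s : M.N₁ × M.N₂).2 := by
    rw [algebraMap_smul]
    rfl
  rw [h1, Submodule.span_singleton_smul_eq (hc.map (algebraMap R 𝔹.B₂))]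

end twoChart

/-! ### Image sections under base change -/

section baseChange

variable {R R' : Type u} [CommRing R] [CommRing R'] {φ : R →+* R'} {𝔹 : TwoChart R}
  {𝔹' : TwoChart R'} {Ψ : TwoChart.Hom φ 𝔹 𝔹'} {N : GluedModule 𝔹} {N' : GluedModule 𝔹'}

/-- The image of a global section under a base change. -/
def mapH0 (D : BaseChangeData Ψ N N') (s : N.H0) : N'.H0 :=
  ⟨(D.j₁ (s : N.N₁ × N.N₂).1, D.j₂ (s : N.N₁ × N.N₂).2), by
    rw [GluedModule.mem_H0]
    change N'.ι₁ (D.j₁ _) = N'.ι₂ (D.j₂ _)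
    rw [← D.comm₁, ← D.comm₂, (GluedModule.mem_H0 N _).mp s.2]⟩

@[simp] theorem mapH0_fst (D : BaseChangeData Ψ N N') (s : N.H0) :
    (mapH0 D s : N'.N₁ × N'.N₂).1 = D.j₁ (s : N.N₁ × N.N₂).1 := rfl

@[simp] theorem mapH0_snd (D : BaseChangeData Ψ N N') (s : N.H0) :
    (mapH0 D s : N'.N₁ × N'.N₂).2 = D.j₂ (s : N.N₁ × N.N₂).2 := rfl

theorem mapH0_add (D : BaseChangeData Ψ N N') (s t : N.H0) :
    mapH0 D (s + t) = mapH0 D s + mapH0 D t := by
  apply Subtype.ext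
  apply Prod.ext
  · change D.j₁ ((s : N.N₁ × N.N₂).1 + (t : N.N₁ × N.N₂).1) = _
    rw [map_add]; rfl
  · change D.j₂ ((s : N.N₁ × N.N₂).2 + (t : N.N₁ × N.N₂).2) = _
    rw [map_add]; rfl

/-- The image section is semilinear in the section. -/
theorem mapH0_smul (D : BaseChangeData Ψ N N') (c : R) (s : N.H0) :
    mapH0 D (c • s) = φ c • mapH0 D s := by
  apply Subtype.ext
  apply Prod.ext
  · change D.j₁ (c • (s : N.N₁ × N.N₂).1) = φ c • D.j₁ (s : N.N₁ × N.N₂).1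
    rw [← algebraMap_smul 𝔹.B₁ c, D.j₁_smul, Ψ.alg₁, algebraMap_smul]
  · change D.j₂ (c • (s : N.N₁ × N.N₂).2) = φ c • D.j₂ (s : N.N₁ × N.N₂).2
    rw [← algebraMap_smul 𝔹.B₂ c, D.j₂_smul, Ψ.alg₂, algebraMap_smul]

/-- `N'.N₂` is generated over `B₂'` by the image of `N.N₂`. -/
theorem span_range_j₂ (D : BaseChangeData Ψ N N') :
    Submodule.span 𝔹'.B₂ (Set.range D.j₂) = ⊤ := by
  set S : Submodule 𝔹'.B₂ N'.N₂ := Submodule.span 𝔹'.B₂ (Set.range D.j₂) with hS
  obtain ⟨h', -, huniq⟩ := D.univ₂ (N'.N₂ ⧸ S) 0 (by intro b n; simp)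
  have h1 := huniq S.mkQ (fun n => by
    rw [Submodule.mkQ_apply, AddMonoidHom.zero_apply, Submodule.Quotient.mk_eq_zero]
    exact Submodule.subset_span ⟨n, rfl⟩)
  have h2 := huniq 0 (fun n => by simp)
  have h3 : S.mkQ = 0 := h1.trans h2.symm
  rw [eq_top_iff]
  intro x _
  have := congrArg (fun F => F x) h3
  simpa using this

/-- `N'.N₁` is generated over `B₁'` by the image of `N.N₁`. -/
theorem span_range_j₁ (D : BaseChangeData Ψ N N') :
    Submodule.span 𝔹'.B₁ (Set.range D.j₁) = ⊤ := by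
  set S : Submodule 𝔹'.B₁ N'.N₁ := Submodule.span 𝔹'.B₁ (Set.range D.j₁) with hS
  obtain ⟨h', -, huniq⟩ := D.univ₁ (N'.N₁ ⧸ S) 0 (by intro b n; simp)
  have h1 := huniq S.mkQ (fun n => by
    rw [Submodule.mkQ_apply, AddMonoidHom.zero_apply, Submodule.Quotient.mk_eq_zero]
    exact Submodule.subset_span ⟨n, rfl⟩)
  have h2 := huniq 0 (fun n => by simp)
  have h3 : S.mkQ = 0 := h1.trans h2.symm
  rw [eq_top_iff]
  intro x _
  have := congrArg (fun F => F x) h3
  simpa using this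

/-- The base change maps `B₂ s₂ + g N₂` into `B₂' s₂' + g N₂'`. -/
theorem j₂_mem_T2 (D : BaseChangeData Ψ N N') (s : N.H0) {x : N.N₂} (hx : x ∈ T2 N s) :
    D.j₂ x ∈ T2 N' (mapH0 D s) := by
  obtain ⟨b, y, rfl⟩ := (mem_T2 N s x).mp hx
  refine (mem_T2 N' _ _).mpr ⟨Ψ.ψ₂ b, D.j₂ y, ?_⟩
  rw [map_add, D.j₂_smul, D.j₂_smul, Ψ.map_g, mapH0_snd]

/-- C2 is stable under base change. -/
theorem C2.of_baseChangeData (D : BaseChangeData Ψ N N') (s : N.H0) (h : C2 N s) :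
    C2 N' (mapH0 D s) := by
  rw [c2_iff] at h ⊢
  rw [eq_top_iff, ← span_range_j₂ D, Submodule.span_le]
  rintro _ ⟨n, rfl⟩
  exact j₂_mem_T2 D s (by rw [h]; trivial)

end baseChange

/-! ### The chart `R ⊗[k] A`: `R'`-spans of images are `R' ⊗[k] A`-submodules -/

section single

variable {k : Type u} [Field k] {R R' A : Type u} [CommRing R] [Algebra k R] [CommRing R']
  [Algebra k R'] [CommRing A] [Algebra k A] (φ : R →ₐ[k] R')
  {N N' : Type u} [AddCommGroup N] [Module (R ⊗[k] A) N] [AddCommGroup N'] [Module R' N']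
  [Module (R' ⊗[k] A) N'] [IsScalarTower R' (R' ⊗[k] A) N']

theorem single_smul_mem_span_image (j : N →+ N')
    (hj : ∀ (b : R ⊗[k] A) (n : N), j (b • n) =
      Algebra.TensorProduct.map φ (AlgHom.id k A) b • j n)
    (T : Submodule (R ⊗[k] A) N) (b' : R' ⊗[k] A) {y : N'}
    (hy : y ∈ Submodule.span R' (j '' (T : Set N))) :
    b' • y ∈ Submodule.span R' (j '' (T : Set N)) := by
  induction b' using TensorProduct.induction_on with
  | zero => rw [zero_smul]; exact zero_mem _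
  | tmul r a =>
    induction hy using Submodule.span_induction with
    | mem y hy =>
      obtain ⟨t, ht, rfl⟩ := hy
      have h1 : (r ⊗ₜ[k] a : R' ⊗[k] A) • j t =
          r • j (((1 : R) ⊗ₜ[k] a : R ⊗[k] A) • t) := by
        rw [hj, Algebra.TensorProduct.map_tmul, map_one, AlgHom.id_apply, ← smul_assoc]
        congr 1
        rw [TensorProduct.smul_tmul', smul_eq_mul, mul_one]
      rw [h1]
      exact Submodule.smul_mem _ _ (Submodule.subset_span ⟨_, T.smul_mem _ ht, rfl⟩)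
    | zero => rw [smul_zero]; exact zero_mem _
    | add x y _ _ hx hy => rw [smul_add]; exact add_mem hx hy
    | smul c x _ hx => rw [smul_comm]; exact Submodule.smul_mem _ _ hx
  | add b₁ b₂ h₁ h₂ => rw [add_smul]; exact add_mem h₁ h₂

end single

/-! ### The curve charts -/

section chart

variable {k : Type u} [Field k] (𝒞 : CurveData k) {R : Type u} [CommRing R] [Algebra k R]
  {R' : Type u} [CommRing R'] [Algebra k R']

/-- The `R'`-span of the image of a `B₂`-submodule is stable under `B₂'`. -/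
theorem smul_mem_span_image₂ (φ : R →ₐ[k] R') {M : GluedModule (𝒞.chart R)}
    {M' : GluedModule (𝒞.chart R')} (D : BaseChangeData (𝒞.chartHom φ) M M')
    (T : Submodule (𝒞.chart R).B₂ M.N₂) (b' : (𝒞.chart R').B₂) {y : M'.N₂}
    (hy : y ∈ Submodule.span R' (D.j₂ '' (T : Set M.N₂))) :
    b' • y ∈ Submodule.span R' (D.j₂ '' (T : Set M.N₂)) := by
  letI : Module (R ⊗[k] 𝒞.A₂) M.N₂ := M.mod₂
  letI : Module (R' ⊗[k] 𝒞.A₂) M'.N₂ := M'.mod₂
  haveI : IsScalarTower R' (R' ⊗[k] 𝒞.A₂) M'.N₂ := M'.tower₂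
  exact single_smul_mem_span_image (A := 𝒞.A₂) φ D.j₂ D.j₂_smul T b' hy

/-- If C2 holds after base change, the image of `B₂ s₂ + g N₂` spans `N₂'` over `R'`. -/
theorem span_image_T2_eq_top (φ : R →ₐ[k] R') {M : GluedModule (𝒞.chart R)}
    {M' : GluedModule (𝒞.chart R')} (D : BaseChangeData (𝒞.chartHom φ) M M') (s : M.H0)
    (h : C2 M' (mapH0 D s)) :
    Submodule.span R' (D.j₂ '' (T2 M s : Set M.N₂)) = ⊤ := by
  rw [c2_iff] at h
  have hg : ∀ z ∈ Submodule.span (𝒞.chart R').B₂ (Set.range D.j₂),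
      (𝒞.chart R').g • z ∈ Submodule.span R' (D.j₂ '' (T2 M s : Set M.N₂)) := by
    intro z hz
    induction hz using Submodule.span_induction with
    | mem z hz =>
      obtain ⟨n, rfl⟩ := hz
      have : (𝒞.chart R').g • D.j₂ n = D.j₂ ((𝒞.chart R).g • n) := by
        rw [D.j₂_smul, (𝒞.chartHom φ).map_g]
      rw [this]
      exact Submodule.subset_span ⟨_, g_smul_mem_T2 M s n, rfl⟩
    | zero => rw [smul_zero]; exact zero_mem _
    | add x y _ _ hx hy => rw [smul_add]; exact add_mem hx hy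
    | smul c x _ hx =>
      rw [smul_comm]
      exact smul_mem_span_image₂ 𝒞 φ D (T2 M s) c hx
  rw [eq_top_iff]
  intro y _
  have hy : y ∈ T2 M' (mapH0 D s) := by rw [h]; trivial
  obtain ⟨b', z, rfl⟩ := (mem_T2 M' _ _).mp hy
  refine add_mem ?_ ?_
  · refine smul_mem_span_image₂ 𝒞 φ D (T2 M s) b' ?_
    exact Submodule.subset_span ⟨_, snd_mem_T2 M s, rfl⟩
  · exact hg z (by rw [span_range_j₂ D]; trivial)

/-- C2 at one field point: some `a` not vanishing at the point satisfies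
`a • N₂ ⊆ B₂ s₂ + g N₂`. -/
theorem C2.exists_smul_mem (M : GluedModule (𝒞.chart R))
    (hfin : Module.Finite (𝒞.chart R).B₂ M.N₂) (s : M.H0)
    {κ : Type u} [Field κ] [Algebra k κ] (φ₀ : R →ₐ[k] κ) {M₀ : GluedModule (𝒞.chart κ)}
    (D₀ : BaseChangeData (𝒞.chartHom φ₀) M M₀) (h : C2 M₀ (mapH0 D₀ s)) :
    ∃ a : R, φ₀ a ≠ 0 ∧ ∀ n : M.N₂, a • n ∈ T2 M s := by
  letI : Algebra R κ := φ₀.toRingHom.toAlgebra
  haveI : IsScalarTower k R κ := IsScalarTower.of_algebraMap_eq (fun c => (φ₀.commutes c).symm)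
  obtain ⟨θ, hθ⟩ := exists_equiv₂ 𝒞 (N := M) (N' := M₀) D₀
  let T : Submodule R M.N₂ := (T2 M s).restrictScalars R
  haveI := hfin
  haveI : Module.Finite R (M.N₂ ⧸ T) := finite_quotient₂ 𝒞 M T (fun y => g_smul_mem_T2 M s y)
  have hT : Submodule.span κ ((fun n => D₀.j₂ n) '' (T : Set M.N₂)) = ⊤ :=
    span_image_T2_eq_top 𝒞 φ₀ D₀ s h
  obtain ⟨a, ha, hmem⟩ := exists_smul_mem_of_span_eq_top T (fun n => D₀.j₂ n) θ hθ hT
  exact ⟨a, ha, hmem⟩

/-- A geometric point over a maximal ideal. -/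
theorem exists_geomPoint (m : Ideal R) (hm : m.IsMaximal) :
    ∃ (κ : Type u) (_ : Field κ) (_ : IsAlgClosed κ) (_ : Algebra k κ) (φ : R →ₐ[k] κ),
      ∀ a ∈ m, φ a = 0 := by
  letI : Field (R ⧸ m) := Ideal.Quotient.field m
  refine ⟨AlgebraicClosure (R ⧸ m), inferInstance, inferInstance, inferInstance,
    (IsScalarTower.toAlgHom k (R ⧸ m) (AlgebraicClosure (R ⧸ m))).comp
      (Ideal.Quotient.mkₐ k m), ?_⟩
  intro a ha
  change algebraMap (R ⧸ m) (AlgebraicClosure (R ⧸ m)) (Ideal.Quotient.mk m a) = 0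
  rw [Ideal.Quotient.eq_zero_iff_mem.mpr ha, map_zero]

/-- (LG for C2) If C2 holds for the image section on every geometric fibre, then C2 holds. -/
theorem C2.of_fibres (M : GluedModule (𝒞.chart R))
    (hfin : Module.Finite (𝒞.chart R).B₂ M.N₂) (s : M.H0)
    (h : ∀ (κ : Type u) [Field κ] [IsAlgClosed κ] [Algebra k κ] (φ : R →ₐ[k] κ),
      ∃ (M' : GluedModule (𝒞.chart κ)) (D : BaseChangeData (𝒞.chartHom φ) M M'),
        C2 M' (mapH0 D s)) :
    C2 M s := by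
  let I : Ideal R :=
    { carrier := {a | ∀ n : M.N₂, a • n ∈ T2 M s}
      add_mem' := fun {a b} ha hb n => by rw [add_smul]; exact add_mem (ha n) (hb n)
      zero_mem' := fun n => by rw [zero_smul]; exact zero_mem _
      smul_mem' := fun c a ha n => by
        rw [smul_eq_mul, mul_smul, ← algebraMap_smul (𝒞.chart R).B₂ c]
        exact Submodule.smul_mem _ _ (ha n) }
  have hI : I = ⊤ := eq_top_of_forall_maximal I (fun m hm => by
    obtain ⟨κ, _, _, _, φ, hφm⟩ := exists_geomPoint (k := k) m hm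
    obtain ⟨M', D, hC⟩ := h κ φ
    obtain ⟨a, ha, hmem⟩ := C2.exists_smul_mem 𝒞 M hfin s φ D hC
    exact ⟨a, hmem, fun ham => ha (hφm a ham)⟩)
  rw [c2_iff, eq_top_iff]
  intro n _
  have h1 : (1 : R) ∈ I := by rw [hI]; trivial
  have := h1 n
  rwa [one_smul] at this

/-- (SPREAD for C2) If C2 holds for the image section at one field point `φ₀`, then it holds after
every base change inverting a suitable `a` with `φ₀ a ≠ 0`. -/
theorem C2.spread (M : GluedModule (𝒞.chart R))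
    (hfin : Module.Finite (𝒞.chart R).B₂ M.N₂) (s : M.H0)
    {κ : Type u} [Field κ] [Algebra k κ] (φ₀ : R →ₐ[k] κ) {M₀ : GluedModule (𝒞.chart κ)}
    (D₀ : BaseChangeData (𝒞.chartHom φ₀) M M₀) (h : C2 M₀ (mapH0 D₀ s)) :
    ∃ a : R, φ₀ a ≠ 0 ∧ ∀ (R' : Type u) [CommRing R'] [Algebra k R'] (φ : R →ₐ[k] R')
      (M' : GluedModule (𝒞.chart R')) (D : BaseChangeData (𝒞.chartHom φ) M M'),
        IsUnit (φ a) → C2 M' (mapH0 D s) := by
  obtain ⟨a, ha, hmem⟩ := C2.exists_smul_mem 𝒞 M hfin s φ₀ D₀ h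
  refine ⟨a, ha, fun R' _ _ φ M' D hu => ?_⟩
  rw [c2_iff, eq_top_iff, ← span_range_j₂ D, Submodule.span_le]
  rintro _ ⟨n, rfl⟩
  obtain ⟨v, hv⟩ := hu.exists_left_inv
  have h1 : D.j₂ n = v • D.j₂ (a • n) := by
    rw [show D.j₂ (a • n) = φ a • D.j₂ n from by
      rw [← algebraMap_smul (𝒞.chart R).B₂ a, D.j₂_smul, (𝒞.chartHom φ).alg₂, algebraMap_smul]
      rfl, ← mul_smul, hv, one_smul]
  rw [h1, ← algebraMap_smul (𝒞.chart R').B₂ v]
  exact Submodule.smul_mem _ _ (j₂_mem_T2 D s (hmem n))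

/-- Over a field, with `h⁰ = 1`: C2 for one section implies C2 for every nonzero section. -/
theorem C2.of_finrank_eq_one {κ : Type u} [Field κ] {𝔹 : TwoChart κ} (M : GluedModule 𝔹)
    (h0 : Module.finrank κ M.H0 = 1) (s₀ : M.H0) (h : C2 M s₀) (s : M.H0) (hs : s ≠ 0) :
    C2 M s := by
  obtain ⟨c, rfl⟩ := (finrank_eq_one_iff_of_nonzero' s hs).mp h0 s₀
  by_cases hc : c = 0
  · -- `s₀ = 0`: then the module is `g`-divisible and C2 holds for every section
    subst hc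
    rw [zero_smul] at h
    rw [c2_iff, eq_top_iff] at h ⊢
    intro x hx
    obtain ⟨b, y, rfl⟩ := (mem_T2 M 0 x).mp (h hx)
    refine (mem_T2 M s _).mpr ⟨0, y, ?_⟩
    have h00 : ((0 : M.H0) : M.N₁ × M.N₂).2 = 0 := rfl
    rw [h00, smul_zero, zero_smul]
  · exact (C2.smul_unit M s c (isUnit_iff_ne_zero.mpr hc)).mp h

/-- A good bundle over a field satisfies C2 for every nonzero global section. -/
theorem c2_of_good {κ : Type u} [Field κ] [Algebra k κ] {M : GluedModule (𝒞.chart κ)}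
    (hM : Good 𝒞 M) (s : M.H0) (hs : s ≠ 0) : C2 M s := by
  obtain ⟨s₀, -, h₀⟩ := hM.sec
  exact C2.of_finrank_eq_one M hM.h0 s₀ h₀ s hs

/-- The section of a good bundle (nonzero at `ε`) is nonzero. -/
theorem exists_c2_of_good {κ : Type u} [Field κ] [Algebra k κ] {M : GluedModule (𝒞.chart κ)}
    (hM : Good 𝒞 M) : ∃ s : M.H0, s ≠ 0 ∧ (∀ t : M.H0, ∃ c : κ, t = c • s) ∧ C2 M s := by
  obtain ⟨s₀, h₁, h₀⟩ := hM.sec
  have hs₀ : s₀ ≠ 0 := by
    rintro rfl
    exact h₁ (zero_mem _)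
  refine ⟨s₀, hs₀, fun t => ?_, h₀⟩
  obtain ⟨c, rfl⟩ := (finrank_eq_one_iff_of_nonzero' s₀ hs₀).mp hM.h0 t
  exact ⟨c, rfl⟩

end chart

end Fermat.Agent.S25.ATLAS.DIV.LG.F5390
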